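/-
S55 engine E1 — leaf ALG10P (pairing formula), helper245.
`alg10Pair : ALG10PairSpec` (exact frozen type of `E1/SpecAlg3.lean`):
`⟨tr f, inf x⟩ = inf_ι ⟨f, x⟩`.

Proof: `(trR, trP, ν)` is a morphism of short exact sequences `(R', P', N') → res π (R, P, N)`
of `G'`-modules; naturality of `δ` for coefficient morphisms (Mathlib) and under change of
group (`H783.δ_naturality_map`, on main) plus `groupCohomology.map_comp`.
-/
import Fermat.Agent.S55.E1.SpecAlg3
import Fermat.Agent.S55.H783.Natural

set_option autoImplicit false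

open CategoryTheory CategoryTheory.Limits groupCohomology

namespace Fermat.Agent.S55.E1.H245

noncomputable section

variable {G G' : Type} [Group G] [Group G'] (π : G' →* G)

/-- `map π φ` followed by a coefficient map. -/
lemma map_then_coeff {A : Rep.{0} ℤ G} {B C : Rep.{0} ℤ G'} (φ : Rep.res π A ⟶ B) (ψ : B ⟶ C)
    (n : ℕ) (z : groupCohomology A n) :
    (T.coeffMap ψ n).hom ((groupCohomology.map π φ n).hom z) =
      (groupCohomology.map π (φ ≫ ψ) n).hom z := by
  have h := groupCohomology.map_comp (k := ℤ) π (MonoidHom.id G') φ ψ n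
  have h' : groupCohomology.map π (φ ≫ ψ) n =
      groupCohomology.map π φ n ≫ groupCohomology.map (MonoidHom.id G') ψ n := by
    rw [← h]
    exact groupCohomology.map_congr rfl rfl n
  rw [h']
  rfl

/-- A coefficient map followed by `map π φ`. -/
lemma coeff_then_map {A A₂ : Rep.{0} ℤ G} {B : Rep.{0} ℤ G'} (f : A ⟶ A₂)
    (φ : Rep.res π A₂ ⟶ B) (n : ℕ) (z : groupCohomology A n) :
    (groupCohomology.map π φ n).hom ((T.coeffMap f n).hom z) =
      (groupCohomology.map π ((Rep.resFunctor π).map f ≫ φ) n).hom z := by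
  have h := groupCohomology.map_comp (k := ℤ) (MonoidHom.id G) π f φ n
  have h' : groupCohomology.map π ((Rep.resFunctor π).map f ≫ φ) n =
      groupCohomology.map (MonoidHom.id G) f n ≫ groupCohomology.map π φ n := by
    rw [← h]
    exact groupCohomology.map_congr rfl rfl n
  rw [h']
  rfl

variable {N : Rep.{0} ℤ G} {N' : Rep.{0} ℤ G'}

/-- The morphism of short complexes `(R', P', N') ⟶ res π (R, P, N)`. -/
def trSC (ν : N' ⟶ Rep.res π N) : stdSC N' ⟶ (stdSC N).map (Rep.resFunctor π) where
  τ₁ := trR π ν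
  τ₂ := trP π ν
  τ₃ := ν
  comm₁₂ := trR_stdι π ν
  comm₂₃ := trP_stdε π ν

theorem stdSC_res_shortExact245 (N : Rep.{0} ℤ G) :
    ((stdSC N).map (Rep.resFunctor π)).ShortExact :=
  (Rep.shortExact_res π).2 (stdSC_shortExact N)

/-- `δ` of the restricted presentation commutes with inflation. -/
lemma δ_res_inf (N : Rep.{0} ℤ G) (x : groupCohomology N 1) :
    (groupCohomology.δ (stdSC_res_shortExact245 π N) 1 2 rfl).hom
        ((groupCohomology.map π (𝟙 (Rep.res π N)) 1).hom x) =
      (groupCohomology.map π (𝟙 (Rep.res π (stdR N))) 2).hom (stdδ N x) := by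
  have h := H783.δ_naturality_map π (stdSC_shortExact N) (stdSC_res_shortExact245 π N)
    (𝟙 ((stdSC N).map (Rep.resFunctor π))) 1 2 rfl
  have h' := congrArg (fun t => t.hom x) h
  exact h'.symm

/-- `(trR)_* ∘ δ' = δ_res ∘ ν_*`. -/
lemma trR_δ (ν : N' ⟶ Rep.res π N) (y : groupCohomology N' 1) :
    (T.coeffMap (trR π ν) 2).hom (stdδ N' y) =
      (groupCohomology.δ (stdSC_res_shortExact245 π N) 1 2 rfl).hom
        ((T.coeffMap ν 1).hom y) := by
  have h := groupCohomology.δ_naturality (stdSC_shortExact N') (stdSC_res_shortExact245 π N)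
    (trSC π ν) 1 2 rfl
  have h' := congrArg (fun t => t.hom y) h
  exact h'

/-- **ALG10 (pairing).** -/
theorem alg10Pair : ALG10PairSpec := by
  intro G G' _ _ π N N' ν X X' ι f x
  change (T.coeffMap (trR π ν.hom ≫ (Rep.resFunctor π).map f ≫ ι) 2).hom
      (stdδ N' ((groupCohomology.map π ν.inv 1).hom x)) =
    (groupCohomology.map π ι 2).hom ((T.coeffMap f 2).hom (stdδ N x))
  rw [coeff_then_map]
  have h1 : (T.coeffMap (trR π ν.hom ≫ (Rep.resFunctor π).map f ≫ ι) 2).hom
      (stdδ N' ((groupCohomology.map π ν.inv 1).hom x)) =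
      (T.coeffMap ((Rep.resFunctor π).map f ≫ ι) 2).hom
        ((T.coeffMap (trR π ν.hom) 2).hom
          (stdδ N' ((groupCohomology.map π ν.inv 1).hom x))) := by
    have h0 := groupCohomology.map_id_comp (k := ℤ) (trR π ν.hom)
      ((Rep.resFunctor π).map f ≫ ι) 2
    exact congrArg (fun t => t.hom (stdδ N' ((groupCohomology.map π ν.inv 1).hom x))) h0
  rw [h1, trR_δ, map_then_coeff, Iso.inv_hom_id, δ_res_inf, map_then_coeff, Category.id_comp]

end

end Fermat.Agent.S55.E1.H245
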