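/-
S55 engine E1 — leaf ALG10E (tr commutes with the edge map), helper245.
`alg10Edge : ALG10EdgeSpec` (exact frozen type of `E1/SpecAlg3.lean`).

Proof: `(trIhom π ν ι, trIhom π (trP π ν) ι, trEdgeB π ν ι)` is a morphism of short complexes
`res π (edgeSC N X) ⟶ edgeSC N' X'`; naturality of `δ` under change of group
(`H783.δ_naturality_map`, on main) and `groupCohomology.map_comp`.
-/
import Fermat.Agent.S55.E1.H245.Alg10Pair

set_option autoImplicit false

open CategoryTheory CategoryTheory.Limits groupCohomology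

namespace Fermat.Agent.S55.E1.H245

noncomputable section

section Generic

variable {k G G' : Type} [CommRing k] [Group G] [Group G'] (π : G' →* G)
variable {A B X : Rep.{0} k G} {A' B' X' : Rep.{0} k G'}
variable (a : A ⟶ B) (a' : A' ⟶ B') (tA : A' ⟶ Rep.res π A) (tB : B' ⟶ Rep.res π B)
variable (ι : Rep.res π X ⟶ X')

/-- `tr` commutes with precomposition. -/
lemma trIhom_ihomPre (hsq : ∀ x : A'.V, a.hom (tA.hom x) = tB.hom (a'.hom x)) :
    (Rep.resFunctor π).map (ihomPre a X) ≫ trIhom π tA ι =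
      trIhom π tB ι ≫ ihomPre a' X' := by
  apply Rep.hom_ext
  apply DFunLike.ext
  intro (φ : B.V →ₗ[k] X.V)
  refine LinearMap.ext (fun x => ?_)
  change ι.hom (φ (a.hom (tA.hom x))) = ι.hom (φ (tB.hom (a'.hom x)))
  rw [hsq]

/-- `tr` commutes with the projection onto the image. -/
lemma trImage_ihomImageProj (hsq : ∀ x : A'.V, a.hom (tA.hom x) = tB.hom (a'.hom x)) :
    (Rep.resFunctor π).map (ihomImageProj a X) ≫ trImage π a a' tA tB ι hsq =
      trIhom π tB ι ≫ ihomImageProj a' X' := by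
  apply Rep.hom_ext
  apply DFunLike.ext
  intro (ψ : B.V →ₗ[k] X.V)
  refine Subtype.ext (LinearMap.ext (fun r => ?_))
  change ι.hom (ψ (a.hom (tA.hom r))) = ι.hom (ψ (tB.hom (a'.hom r)))
  rw [hsq]

/-- `tr` on the image followed by the inclusion. -/
lemma trImage_ihomImageIncl (hsq : ∀ x : A'.V, a.hom (tA.hom x) = tB.hom (a'.hom x)) :
    trImage π a a' tA tB ι hsq ≫ ihomImageIncl a' X' =
      (Rep.resFunctor π).map (ihomImageIncl a X) ≫ trIhom π tA ι := by
  apply Rep.hom_ext
  apply DFunLike.ext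
  intro φ
  rfl

end Generic

variable {G G' : Type} [Group G] [Group G'] (π : G' →* G)
variable {N : Rep.{0} ℤ G} {N' : Rep.{0} ℤ G'} (ν : N' ⟶ Rep.res π N)
variable {X : Rep.{0} ℤ G} {X' : Rep.{0} ℤ G'} (ι : Rep.res π X ⟶ X')

/-- The morphism of short complexes `res π (edgeSC N X) ⟶ edgeSC N' X'`. -/
def trEdgeSC : (edgeSC N X).map (Rep.resFunctor π) ⟶ edgeSC N' X' where
  τ₁ := trIhom π ν ι
  τ₂ := trIhom π (trP π ν) ι
  τ₃ := trEdgeB π ν ι
  comm₁₂ := (trIhom_ihomPre π (stdε N) (stdε N') (trP π ν) ν ι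
    (fun x => trP_stdε_apply π ν x)).symm
  comm₂₃ := (trImage_ihomImageProj π (stdι N) (stdι N') (trR π ν) (trP π ν) ι
    (fun r => trR_stdι_apply π ν r)).symm

/-- `trEdgeB` followed by the inclusion is the inclusion followed by `trIhom`. -/
lemma trEdgeB_incl :
    trEdgeB π ν ι ≫ ihomImageIncl (stdι N') X' =
      (Rep.resFunctor π).map (ihomImageIncl (stdι N) X) ≫ trIhom π (trR π ν) ι :=
  trImage_ihomImageIncl π (stdι N) (stdι N') (trR π ν) (trP π ν) ι
    (fun r => trR_stdι_apply π ν r)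

/-- **ALG10 (edge).** -/
theorem alg10Edge : ALG10EdgeSpec := by
  intro G G' _ _ π N N' ν X X' ι b
  constructor
  · have h := H783.δ_naturality_map π (edgeSC_shortExact N X) (edgeSC_shortExact N' X')
      (trEdgeSC π ν ι) 1 2 rfl
    have h' := congrArg (fun t => t.hom b) h
    exact h'.symm
  · have e1 := map_then_coeff π (trEdgeB π ν ι) (ihomImageIncl (stdι N') X') 1 b
    have e2 := coeff_then_map π (ihomImageIncl (stdι N) X) (trIhom π (trR π ν) ι) 1 b
    exact e1.trans ((congrArg (fun t => (groupCohomology.map π t 1).hom b)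
      (trEdgeB_incl π ν ι)).trans e2.symm)

end

end Fermat.Agent.S55.E1.H245
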